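import Fermat.Agent.S21.J3.DivCore

/-!
# Project ES (S20 + S21), work package J3 (core, part 2): calculus of `ordAt`

On top of `DivCore.lean` (definition of `ordAt` and the general division lemma):

* `ordAt_eq_zero_iff`, `one_le_ordAt_iff`, `ordAt_eq_top_iff`, `ordAt_ne_top`
* `ordAt_mul`, `ordAt_pow`, `ordAt_const_mul`, `ordAt_smul_const`
* `ordAt_eq_one_iff`, `ordAt_eq_one_iff_normalizedDeriv` : simple zeros
* `exists_mdiff_eq_mul_pow` : division by a power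
* `ordAt_comp_smul`, `ordAt_slash` : `SL(2,ℤ)`-equivariance of orders
* `eq_of_mul_eq_mul_of_mdiff` : uniqueness of holomorphic quotients
-/

set_option autoImplicit false

open UpperHalfPlane Complex Filter Topology
open scoped Manifold MatrixGroups ModularForm

namespace Fermat.Agent.S21.J3

lemma isPreconnected_uhp : IsPreconnected {z : ℂ | 0 < z.im} :=
  Convex.isPreconnected (convex_halfSpace_im_gt 0)

lemma comp_ofComplex_of_im_pos (f : ℍ → ℂ) {x : ℂ} (hx : 0 < x.im) :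
    (f ∘ ofComplex) x = f ⟨x, hx⟩ := by
  simp [Function.comp, ofComplex_apply_of_im_pos hx]

/-- A function `G : ℂ → ℂ` analytic on the upper half plane restricts to a holomorphic
function on `ℍ`. -/
lemma mdiff_of_analyticOnNhd {G : ℂ → ℂ} (hG : AnalyticOnNhd ℂ G {z : ℂ | 0 < z.im}) :
    MDiff (fun z : ℍ => G (z : ℂ)) := by
  rw [UpperHalfPlane.mdifferentiable_iff]
  refine hG.differentiableOn.congr fun x hx => ?_
  have hx' : 0 < x.im := hx
  simp [Function.comp, ofComplex_apply_of_im_pos hx']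

/-! ### basic properties of `ordAt` -/

lemma ordAt_eq_zero_iff {f : ℍ → ℂ} (hf : MDiff f) {z : ℍ} : ordAt f z = 0 ↔ f z ≠ 0 := by
  rw [ordAt, (analyticAt_comp_ofComplex hf z).analyticOrderAt_eq_zero, comp_ofComplex_coe]

lemma ordAt_ne_zero_iff {f : ℍ → ℂ} (hf : MDiff f) {z : ℍ} : ordAt f z ≠ 0 ↔ f z = 0 := by
  rw [Ne, ordAt_eq_zero_iff hf, not_not]

lemma one_le_ordAt_iff {f : ℍ → ℂ} (hf : MDiff f) {z : ℍ} : 1 ≤ ordAt f z ↔ f z = 0 := by
  rw [Order.one_le_iff_ne_zero, ordAt_ne_zero_iff hf]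

/-- `ordAt f z = ⊤` iff `f` is identically zero (identity theorem on `ℍ`). -/
lemma ordAt_eq_top_iff {f : ℍ → ℂ} (hf : MDiff f) {z : ℍ} : ordAt f z = ⊤ ↔ ∀ w, f w = 0 := by
  constructor
  · intro h w
    by_contra hw
    have h1 : analyticOrderAt (f ∘ ofComplex) (w : ℂ) ≠ ⊤ := by
      have : analyticOrderAt (f ∘ ofComplex) (w : ℂ) = 0 := (ordAt_eq_zero_iff hf).2 hw
      rw [this]; exact ENat.zero_ne_top
    exact (analyticOnNhd_comp_ofComplex hf).analyticOrderAt_ne_top_of_isPreconnected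
      isPreconnected_uhp w.im_pos z.im_pos h1 h
  · intro h
    rw [ordAt, analyticOrderAt_eq_top]
    filter_upwards [isOpen_upperHalfPlaneSet.mem_nhds z.im_pos] with x hx
    rw [comp_ofComplex_of_im_pos f hx]; exact h _

lemma ordAt_ne_top {f : ℍ → ℂ} (hf : MDiff f) {w : ℍ} (hw : f w ≠ 0) (z : ℍ) :
    ordAt f z ≠ ⊤ := fun h => hw ((ordAt_eq_top_iff hf).1 h w)

lemma ordAt_mul {f g : ℍ → ℂ} (hf : MDiff f) (hg : MDiff g) (z : ℍ) :
    ordAt (f * g) z = ordAt f z + ordAt g z :=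
  analyticOrderAt_mul (analyticAt_comp_ofComplex hf z) (analyticAt_comp_ofComplex hg z)

lemma ordAt_fun_mul {f g : ℍ → ℂ} (hf : MDiff f) (hg : MDiff g) (z : ℍ) :
    ordAt (fun w => f w * g w) z = ordAt f z + ordAt g z :=
  ordAt_mul hf hg z

lemma ordAt_pow {f : ℍ → ℂ} (hf : MDiff f) (n : ℕ) (z : ℍ) :
    ordAt (f ^ n) z = n * ordAt f z := by
  have := analyticOrderAt_pow (analyticAt_comp_ofComplex hf z) n
  rw [nsmul_eq_mul] at this
  exact this

lemma ordAt_fun_pow {f : ℍ → ℂ} (hf : MDiff f) (n : ℕ) (z : ℍ) :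
    ordAt (fun w => f w ^ n) z = n * ordAt f z :=
  ordAt_pow hf n z

lemma ordAt_of_ne_zero {f : ℍ → ℂ} (hf : MDiff f) {z : ℍ} (h : f z ≠ 0) : ordAt f z = 0 :=
  (ordAt_eq_zero_iff hf).2 h

lemma ordAt_const_mul {f : ℍ → ℂ} (hf : MDiff f) {c : ℂ} (hc : c ≠ 0) (z : ℍ) :
    ordAt (fun w => c * f w) z = ordAt f z := by
  have h1 : MDiff (fun _ : ℍ => c) := mdifferentiable_const
  have := ordAt_fun_mul h1 hf z
  rw [this, ordAt_of_ne_zero h1 hc, zero_add]

lemma ordAt_smul_const {f : ℍ → ℂ} (hf : MDiff f) {c : ℂ} (hc : c ≠ 0) (z : ℍ) :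
    ordAt (c • f) z = ordAt f z :=
  ordAt_const_mul hf hc z

lemma ordAt_neg (f : ℍ → ℂ) (z : ℍ) : ordAt (-f) z = ordAt f z := by
  have : (-f) ∘ ofComplex = -(f ∘ ofComplex) := rfl
  rw [ordAt, this, analyticOrderAt_neg, ordAt]

/-- `n ≤ ordAt f z` iff `f` is locally divisible by `(w - z) ^ n`. -/
lemma natCast_le_ordAt_iff {f : ℍ → ℂ} (hf : MDiff f) {z : ℍ} {n : ℕ} :
    (n : ℕ∞) ≤ ordAt f z ↔
      ∃ g : ℂ → ℂ, AnalyticAt ℂ g (z : ℂ) ∧
        ∀ᶠ w in 𝓝 (z : ℂ), (f ∘ ofComplex) w = (w - (z : ℂ)) ^ n * g w := by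
  rw [ordAt, natCast_le_analyticOrderAt (analyticAt_comp_ofComplex hf z)]
  simp only [smul_eq_mul]

/-- `n ≤ ordAt f z` iff the first `n` derivatives of `f` vanish at `z`. -/
lemma natCast_le_ordAt_iff_iteratedDeriv {f : ℍ → ℂ} (hf : MDiff f) {z : ℍ} {n : ℕ} :
    (n : ℕ∞) ≤ ordAt f z ↔ ∀ i < n, iteratedDeriv i (f ∘ ofComplex) (z : ℂ) = 0 :=
  natCast_le_analyticOrderAt_iff_iteratedDeriv_eq_zero (analyticAt_comp_ofComplex hf z)

/-- simple zero criterion -/
lemma ordAt_eq_one_iff {f : ℍ → ℂ} (hf : MDiff f) {z : ℍ} :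
    ordAt f z = 1 ↔ f z = 0 ∧ deriv (f ∘ ofComplex) (z : ℂ) ≠ 0 := by
  have h := analyticOrderAt_eq_nat_iff_iteratedDeriv_eq_zero
    (analyticAt_comp_ofComplex hf z) (n := 1)
  rw [ordAt]
  simp only [Nat.cast_one, Nat.lt_one_iff, forall_eq, iteratedDeriv_zero, comp_ofComplex_coe,
    iteratedDeriv_one] at h
  exact h

/-- simple zero criterion in terms of the normalised derivative `D = (2πi)⁻¹ d/dz`. -/
lemma ordAt_eq_one_iff_normalizedDeriv {f : ℍ → ℂ} (hf : MDiff f) {z : ℍ} :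
    ordAt f z = 1 ↔ f z = 0 ∧ Derivative.normalizedDerivOfComplex f z ≠ 0 := by
  rw [ordAt_eq_one_iff hf, Derivative.normalizedDerivOfComplex]
  simp [Real.pi_ne_zero, Complex.I_ne_zero]

/-- a zero of order `≥ 2` is a common zero of `f` and its derivative. -/
lemma two_le_ordAt_iff {f : ℍ → ℂ} (hf : MDiff f) {z : ℍ} :
    2 ≤ ordAt f z ↔ f z = 0 ∧ Derivative.normalizedDerivOfComplex f z = 0 := by
  have h := natCast_le_ordAt_iff_iteratedDeriv hf (z := z) (n := 2)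
  have h2 : (2 * (Real.pi : ℂ) * Complex.I)⁻¹ ≠ 0 := by
    simp [Real.pi_ne_zero, Complex.I_ne_zero]
  rw [Derivative.normalizedDerivOfComplex]
  simp only [Nat.cast_ofNat] at h
  rw [h]
  constructor
  · intro H
    have h0 := H 0 (by norm_num)
    have h1 := H 1 (by norm_num)
    simp only [iteratedDeriv_zero, comp_ofComplex_coe, iteratedDeriv_one] at h0 h1
    exact ⟨h0, by simp [h1]⟩
  · rintro ⟨h0, h1⟩ i hi
    interval_cases i
    · simpa using h0
    · simpa [h2] using h1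

/-! ### division by a power -/

/-- **Division by a power**: if `f`, `h` are holomorphic on `ℍ` and
at every point the order of `f` is at least `m` times the order of `h`, then `f = g * h ^ m`
with `g` holomorphic on `ℍ`. -/
theorem exists_mdiff_eq_mul_pow {f h : ℍ → ℂ} (hf : MDiff f) (hh : MDiff h) (m : ℕ)
    (H : ∀ z : ℍ, m * ordAt h z ≤ ordAt f z) :
    ∃ g : ℍ → ℂ, MDiff g ∧ ∀ z, f z = g z * h z ^ m := by
  have hpow : MDiff (h ^ m) := hh.pow m
  obtain ⟨g, hg, hfg⟩ := exists_mdiff_mul_eq_of_ordAt_le hf hpow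
    (fun z => by rw [ordAt_pow hh]; exact H z)
  exact ⟨g, hg, fun z => by simpa using hfg z⟩

/-- Division by a power of a function with at most simple zeros: it is enough to control
the order of `f` at the zeros of `h`. -/
theorem exists_mdiff_eq_mul_pow_of_simple {f h : ℍ → ℂ} (hf : MDiff f) (hh : MDiff h) (m : ℕ)
    (hsimple : ∀ z : ℍ, ordAt h z ≤ 1)
    (H : ∀ z : ℍ, h z = 0 → (m : ℕ∞) ≤ ordAt f z) :
    ∃ g : ℍ → ℂ, MDiff g ∧ ∀ z, f z = g z * h z ^ m := by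
  refine exists_mdiff_eq_mul_pow hf hh m fun z => ?_
  by_cases hz : h z = 0
  · calc (m : ℕ∞) * ordAt h z ≤ m * 1 := by gcongr; exact hsimple z
      _ = m := mul_one _
      _ ≤ ordAt f z := H z hz
  · rw [ordAt_of_ne_zero hh hz, mul_zero]; exact bot_le

/-! ### uniqueness of quotients -/

/-- Two holomorphic functions on `ℍ` which agree after multiplication by a holomorphic
function `h ≢ 0` are equal. -/
theorem eq_of_mul_eq_mul_of_mdiff {g₁ g₂ h : ℍ → ℂ} (hg₁ : MDiff g₁) (hg₂ : MDiff g₂)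
    (hh : MDiff h) {w : ℍ} (hw : h w ≠ 0) (H : ∀ z, g₁ z * h z = g₂ z * h z) : g₁ = g₂ := by
  have hd : MDiff (g₁ - g₂) := hg₁.sub hg₂
  have hprod : ∀ z, ((g₁ - g₂) * h) z = 0 := fun z => by
    simp only [Pi.mul_apply, Pi.sub_apply, sub_mul, H z, sub_self]
  have h1 : ordAt ((g₁ - g₂) * h) w = ⊤ := (ordAt_eq_top_iff (hd.mul hh)).2 hprod
  rw [ordAt_mul hd hh, ordAt_of_ne_zero hh hw, add_zero] at h1
  funext z
  have := (ordAt_eq_top_iff hd).1 h1 z
  simpa [sub_eq_zero] using this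

/-! ### equivariance under `SL(2, ℤ)` -/

lemma det_coe_SL_pos (γ : SL(2, ℤ)) : 0 < ((γ : GL (Fin 2) ℝ)).val.det := by
  have hdet : (γ : GL (Fin 2) ℝ).val.det = 1 := by
    rw [← Matrix.GeneralLinearGroup.val_det_apply]; simp
  rw [hdet]; exact one_pos

/-- Orders of vanishing are `SL(2, ℤ)`-equivariant (plain composition form). -/
theorem ordAt_comp_smul (f : ℍ → ℂ) (γ : SL(2, ℤ)) (z : ℍ) :
    ordAt (fun w => f (γ • w)) z = ordAt f (γ • z) := by
  have hg := det_coe_SL_pos γ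
  let G : ℂ → ℂ := fun w => ((γ : GL (Fin 2) ℝ) • ofComplex w : ℍ)
  have hcomp : ((fun w => f (γ • w)) ∘ ofComplex) = (f ∘ ofComplex) ∘ G := by
    funext w
    simp only [Function.comp_apply, G, ofComplex_apply]
    rfl
  rw [ordAt, hcomp,
    analyticOrderAt_comp_of_deriv_ne_zero (z.analyticAt_smul hg) (z.deriv_smul_ne_zero hg)]
  simp only [ofComplex_apply]
  rfl

/-- Orders of vanishing are `SL(2, ℤ)`-equivariant (slash action form). -/
theorem ordAt_slash {f : ℍ → ℂ} (hf : MDiff f) (k : ℤ) (γ : SL(2, ℤ)) (z : ℍ) :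
    ordAt (f ∣[k] γ) z = ordAt f (γ • z) := by
  have hdet : 0 < ((γ : GL (Fin 2) ℝ)).det.val := by
    rw [Matrix.GeneralLinearGroup.val_det_apply]; exact det_coe_SL_pos γ
  have h1 : MDiff (fun w : ℍ => f (γ • w)) :=
    hf.comp (mdifferentiable_smul hdet)
  have h2 : MDiff (fun w : ℍ => denom γ w ^ (-k)) :=
    mdifferentiable_denom_zpow (γ : GL (Fin 2) ℝ) (-k)
  have h3 : (f ∣[k] γ) = (fun w : ℍ => f (γ • w)) * (fun w : ℍ => denom γ w ^ (-k)) := by
    funext w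
    simp [ModularForm.SL_slash_apply]
  rw [h3, ordAt_mul h1 h2, ordAt_comp_smul,
    ordAt_of_ne_zero h2 (zpow_ne_zero _ (denom_ne_zero γ z)), add_zero]

/-- If `f` is weight-`k` invariant under `γ`, its order at `γ • z` equals its order at `z`. -/
theorem ordAt_smul_of_slash_eq {f : ℍ → ℂ} (hf : MDiff f) {k : ℤ} {γ : SL(2, ℤ)}
    (h : f ∣[k] γ = f) (z : ℍ) : ordAt f (γ • z) = ordAt f z := by
  rw [← ordAt_slash hf k γ z, h]

end Fermat.Agent.S21.J3
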