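import Mathlib

/-!
# Project ES (S20 + S21), work package J3: order of vanishing on `ℍ` and the general division lemma

General division lemma: if `f`, `φ` are holomorphic on `ℍ` and the order of vanishing of `f`
dominates that of `φ` at every point, then `f = h * φ` with `h` holomorphic on `ℍ`.
-/

set_option autoImplicit false

open UpperHalfPlane Filter Topology
open scoped Manifold

namespace Fermat.Agent.S21.J3

/-- the order of vanishing of `f : ℍ → ℂ` at `z : ℍ` -/
noncomputable def ordAt (f : ℍ → ℂ) (z : ℍ) : ℕ∞ := analyticOrderAt (f ∘ ofComplex) (z : ℂ)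

lemma comp_ofComplex_coe (f : ℍ → ℂ) (z : ℍ) : (f ∘ ofComplex) (z : ℂ) = f z := by
  simp [Function.comp, ofComplex_apply]

lemma analyticOnNhd_comp_ofComplex {f : ℍ → ℂ} (hf : MDiff f) :
    AnalyticOnNhd ℂ (f ∘ ofComplex) {z : ℂ | 0 < z.im} :=
  (UpperHalfPlane.mdifferentiable_iff.mp hf).analyticOnNhd isOpen_upperHalfPlaneSet

lemma analyticAt_comp_ofComplex {f : ℍ → ℂ} (hf : MDiff f) (z : ℍ) :
    AnalyticAt ℂ (f ∘ ofComplex) (z : ℂ) :=
  analyticOnNhd_comp_ofComplex hf (z : ℂ) z.im_pos

lemma zero_le_map_sub_map (a b : ℕ∞) (h : b ≤ a) :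
    (0 : WithTop ℤ) ≤ ENat.map Nat.cast a - ENat.map Nat.cast b := by
  induction a using ENat.recTopCoe with
  | top => simp
  | coe n =>
    induction b using ENat.recTopCoe with
    | top => simp at h
    | coe m =>
      have hmn : m ≤ n := by exact_mod_cast h
      simp only [ENat.map_natCast]
      have : ((Nat.cast n : ℤ) : WithTop ℤ) - ((Nat.cast m : ℤ) : WithTop ℤ)
          = (((n : ℤ) - (m : ℤ) : ℤ) : WithTop ℤ) := by
        norm_cast
      rw [this]
      have h2 : (0 : ℤ) ≤ (n : ℤ) - (m : ℤ) := by omega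
      exact_mod_cast h2

/-- **General division lemma.** If `f`, `φ` are holomorphic on `ℍ` and at every point the order
of vanishing of `φ` is at most that of `f`, then `f = h * φ` with `h` holomorphic. -/
theorem exists_mdiff_mul_eq_of_ordAt_le {f φ : ℍ → ℂ} (hf : MDiff f) (hφ : MDiff φ)
    (hord : ∀ z : ℍ, ordAt φ z ≤ ordAt f z) :
    ∃ h : ℍ → ℂ, MDiff h ∧ ∀ z, f z = h z * φ z := by
  classical
  set U : Set ℂ := {z : ℂ | 0 < z.im} with hU
  set F : ℂ → ℂ := f ∘ ofComplex with hFdef
  set Φ : ℂ → ℂ := φ ∘ ofComplex with hΦdef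
  have hF : AnalyticOnNhd ℂ F U := analyticOnNhd_comp_ofComplex hf
  have hΦ : AnalyticOnNhd ℂ Φ U := analyticOnNhd_comp_ofComplex hφ
  have hG : MeromorphicOn (F / Φ) U := fun x hx =>
    (hF x hx).meromorphicAt.div (hΦ x hx).meromorphicAt
  set H : ℂ → ℂ := toMeromorphicNFOn (F / Φ) U with hHdef
  have hordU : ∀ x ∈ U, analyticOrderAt Φ x ≤ analyticOrderAt F x := by
    intro x hx
    have := hord ⟨x, hx⟩
    simpa [ordAt] using this
  -- `H` is analytic on `U`
  have hHan : ∀ x ∈ U, AnalyticAt ℂ H x := by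
    intro x hx
    have hNF : MeromorphicNFAt H x := meromorphicNFOn_toMeromorphicNFOn (F / Φ) U hx
    rw [← hNF.meromorphicOrderAt_nonneg_iff_analyticAt, hHdef,
      meromorphicOrderAt_toMeromorphicNFOn hG hx,
      meromorphicOrderAt_div (hF x hx).meromorphicAt (hΦ x hx).meromorphicAt,
      (hF x hx).meromorphicOrderAt_eq, (hΦ x hx).meromorphicOrderAt_eq]
    exact zero_le_map_sub_map _ _ (hordU x hx)
  -- `F = H * Φ` on `U`
  have hmul : ∀ x ∈ U, F x = H x * Φ x := by
    intro x hx
    rcases (hΦ x hx).eventually_eq_zero_or_eventually_ne_zero with h0 | hne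
    · -- `Φ` vanishes identically near `x`, hence so does `F`
      have hΦtop : analyticOrderAt Φ x = ⊤ := analyticOrderAt_eq_top.mpr h0
      have hFtop : analyticOrderAt F x = ⊤ := top_le_iff.mp (hΦtop ▸ hordU x hx)
      have hF0 : ∀ᶠ y in 𝓝 x, F y = 0 := analyticOrderAt_eq_top.mp hFtop
      rw [hF0.self_of_nhds, h0.self_of_nhds, mul_zero]
    · -- `Φ ≠ 0` on a punctured neighbourhood
      have hHG : H =ᶠ[𝓝[≠] x] F / Φ := hG.toMeromorphicNFOn_eq_self_on_nhdsNE hx
      have hev : ∀ᶠ y in 𝓝[≠] x, F y - H y * Φ y = 0 := by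
        filter_upwards [hHG, hne] with y hy hy'
        rw [hy, Pi.div_apply, div_mul_cancel₀ _ hy', sub_self]
      have hcont : ContinuousAt (fun y => F y - H y * Φ y) x :=
        ((hF x hx).continuousAt).sub (((hHan x hx).continuousAt).mul ((hΦ x hx).continuousAt))
      have hlim : Tendsto (fun y => F y - H y * Φ y) (𝓝[≠] x) (𝓝 (F x - H x * Φ x)) :=
        hcont.tendsto.mono_left nhdsWithin_le_nhds
      have hlim0 : Tendsto (fun y => F y - H y * Φ y) (𝓝[≠] x) (𝓝 0) :=
        (tendsto_congr' hev).mpr tendsto_const_nhds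
      have := tendsto_nhds_unique hlim hlim0
      exact sub_eq_zero.mp this
  refine ⟨fun z => H (z : ℂ), ?_, ?_⟩
  · rw [UpperHalfPlane.mdifferentiable_iff]
    have hHd : DifferentiableOn ℂ H U := fun x hx => (hHan x hx).differentiableAt.differentiableWithinAt
    refine hHd.congr ?_
    intro x hx
    have hx' : 0 < x.im := hx
    simp [Function.comp, ofComplex_apply_of_im_pos hx']
  · intro z
    have := hmul (z : ℂ) z.im_pos
    simpa [hFdef, hΦdef, Function.comp, ofComplex_apply] using this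

end Fermat.Agent.S21.J3
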